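/-
S52 programme K, brick K5 (mod-3 irreducibility), helper64.

Local lemmas at a valuation subring `A` of `ℚ̄` over a prime `q`:

* `intCast_not_mem_nonunits` / `dvd_of_intCast_mem_nonunits`: an integer is a non-unit of `A`
  iff `q` divides it;
* `exists_nat_forall_mem`: an element of `ℚ̄` lies in every valuation subring over every prime
  outside a finite set (the prime divisors of some `d ≠ 0`);
* `exists_int_sub_mem_nonunits`: an element of `A` fixed by a Frobenius element at `A` is congruent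
  to a rational integer modulo the maximal ideal;
* `aeval_sub_aeval_mem_nonunits`: integer polynomials preserve congruences;
* `not_isSquare_three`: if a Frobenius element at `A` moves a square root of `3`, then `3` is not a
  square modulo `q`.
-/
import Mathlib
import Fermat.Agent.ES.GAL.ChebQbar23

set_option autoImplicit false

open Polynomial
open Fermat.Agent.Lib.FrobeniusExists

namespace Fermat.Agent.S52K5.Local

variable {A : ValuationSubring Qbar} {q : ℕ}

theorem mem_nonunits_iff_lt {x : Qbar} : x ∈ A.nonunits ↔ A.valuation x < 1 :=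
  A.mem_nonunits_iff

theorem mem_iff_le {x : Qbar} : x ∈ A ↔ A.valuation x ≤ 1 :=
  (A.valuation_le_one_iff x).symm

theorem mul_mem_nonunits_left {x y : Qbar} (hx : x ∈ A) (hy : y ∈ A.nonunits) :
    x * y ∈ A.nonunits := by
  rw [mem_nonunits_iff_lt] at hy ⊢
  rw [mem_iff_le] at hx
  rw [map_mul]
  calc A.valuation x * A.valuation y ≤ 1 * A.valuation y := mul_le_mul_left hx _
    _ = A.valuation y := one_mul _
    _ < 1 := hy

theorem mul_mem_nonunits_right {x y : Qbar} (hx : x ∈ A.nonunits) (hy : y ∈ A) :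
    x * y ∈ A.nonunits := by
  rw [mul_comm]
  exact mul_mem_nonunits_left hy hx

theorem add_mem_nonunits {x y : Qbar} (hx : x ∈ A.nonunits) (hy : y ∈ A.nonunits) :
    x + y ∈ A.nonunits := by
  rw [mem_nonunits_iff_lt] at hx hy ⊢
  exact lt_of_le_of_lt (A.valuation.map_add _ _) (max_lt hx hy)

theorem neg_mem_nonunits {x : Qbar} (hx : x ∈ A.nonunits) : -x ∈ A.nonunits := by
  rw [mem_nonunits_iff_lt] at hx ⊢
  rwa [Valuation.map_neg]

theorem sub_mem_nonunits {x y : Qbar} (hx : x ∈ A.nonunits) (hy : y ∈ A.nonunits) :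
    x - y ∈ A.nonunits := by
  rw [sub_eq_add_neg]
  exact add_mem_nonunits hx (neg_mem_nonunits hy)

theorem one_not_mem_nonunits : (1 : Qbar) ∉ A.nonunits := by
  rw [mem_nonunits_iff_lt, map_one]
  exact lt_irrefl _

theorem mem_of_mem_nonunits {x : Qbar} (hx : x ∈ A.nonunits) : x ∈ A := by
  rw [mem_nonunits_iff_lt] at hx
  rw [mem_iff_le]
  exact hx.le

/-- The maximal ideal is prime. -/
theorem mem_or_mem_of_mul_mem_nonunits {x y : Qbar} (hx : x ∈ A) (hy : y ∈ A)
    (hxy : x * y ∈ A.nonunits) : x ∈ A.nonunits ∨ y ∈ A.nonunits := by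
  rw [mem_nonunits_iff_lt] at hxy
  rw [mem_iff_le] at hx hy
  by_contra hcon
  rw [not_or, mem_nonunits_iff_lt, mem_nonunits_iff_lt, not_lt, not_lt] at hcon
  have h1 : A.valuation x = 1 := le_antisymm hx hcon.1
  have h2 : A.valuation y = 1 := le_antisymm hy hcon.2
  rw [map_mul, h1, h2, one_mul] at hxy
  exact lt_irrefl _ hxy

theorem pow_mem_nonunits_imp {x : Qbar} (hx : x ∈ A) {n : ℕ} (hxn : x ^ n ∈ A.nonunits) :
    x ∈ A.nonunits := by
  induction n with
  | zero =>
    rw [pow_zero] at hxn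
    exact absurd hxn one_not_mem_nonunits
  | succ n ih =>
    rw [pow_succ] at hxn
    rcases mem_or_mem_of_mul_mem_nonunits (pow_mem hx n) hx hxn with h | h
    · exact ih h
    · exact h

/-- An integer prime to `q` is a unit of `A`. -/
theorem intCast_not_mem_nonunits (hq : q.Prime) (hA : A.LiesOverPrime q) {d : ℤ}
    (hd : ¬ (q : ℤ) ∣ d) : (d : Qbar) ∉ A.nonunits := by
  intro hmem
  have hcop : IsCoprime (q : ℤ) d :=
    (Nat.prime_iff_prime_int.mp hq).coprime_iff_not_dvd.mpr hd
  obtain ⟨u, v, huv⟩ := hcop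
  have h1 : (u : Qbar) * (q : Qbar) + (v : Qbar) * (d : Qbar) = 1 := by
    have := congrArg (Int.cast : ℤ → Qbar) huv
    push_cast at this
    exact this
  have h2 : (u : Qbar) * (q : Qbar) + (v : Qbar) * (d : Qbar) ∈ A.nonunits :=
    add_mem_nonunits (mul_mem_nonunits_left (intCast_mem A u) hA)
      (mul_mem_nonunits_left (intCast_mem A v) hmem)
  rw [h1] at h2
  exact one_not_mem_nonunits h2

theorem dvd_of_intCast_mem_nonunits (hq : q.Prime) (hA : A.LiesOverPrime q) {d : ℤ}
    (hd : (d : Qbar) ∈ A.nonunits) : (q : ℤ) ∣ d := by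
  by_contra h
  exact intCast_not_mem_nonunits hq hA h hd

theorem intCast_mem_nonunits_of_dvd (hA : A.LiesOverPrime q) {d : ℤ}
    (hd : (q : ℤ) ∣ d) : (d : Qbar) ∈ A.nonunits := by
  obtain ⟨e, rfl⟩ := hd
  push_cast
  exact mul_mem_nonunits_right hA (intCast_mem A e)

/-- The inverse of an integer prime to `q` lies in `A`. -/
theorem inv_intCast_mem (hq : q.Prime) (hA : A.LiesOverPrime q) {d : ℤ}
    (hd : ¬ (q : ℤ) ∣ d) : ((d : Qbar))⁻¹ ∈ A := by
  have h1 := intCast_not_mem_nonunits hq hA hd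
  rw [mem_nonunits_iff_lt, not_lt] at h1
  rw [mem_iff_le, map_inv₀]
  have h2 : A.valuation (d : Qbar) = 1 :=
    le_antisymm (mem_iff_le.mp (intCast_mem A d)) h1
  rw [h2, inv_one]

/-- Every element of `ℚ̄` is integral at all primes outside a finite set. -/
theorem exists_nat_forall_mem (x : Qbar) :
    ∃ d : ℕ, d ≠ 0 ∧ ∀ (A : ValuationSubring Qbar) (q : ℕ), q.Prime → A.LiesOverPrime q →
      ¬ q ∣ d → x ∈ A := by
  obtain ⟨d, hd0, hint⟩ := (isAlgebraic_int_Qbar x).exists_integral_multiple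
  refine ⟨d.natAbs, Int.natAbs_ne_zero.mpr hd0, fun A q hq hA hqd => ?_⟩
  have hqd' : ¬ (q : ℤ) ∣ d := by
    rwa [Int.natCast_dvd]
  have hy : (d • x : Qbar) ∈ A := mem_valuationSubring_of_isIntegral A hint
  have hinv := inv_intCast_mem hq hA hqd'
  have hd0' : (d : Qbar) ≠ 0 := by exact_mod_cast hd0
  have hx : x = ((d : Qbar))⁻¹ * (d • x : Qbar) := by
    rw [zsmul_eq_mul, ← mul_assoc, inv_mul_cancel₀ hd0', one_mul]
  rw [hx]
  exact mul_mem hinv hy

/-- The residue field of a valuation subring over `q` has characteristic `q`. -/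
theorem charP_residueField (hq : q.Prime) (hA : A.LiesOverPrime q) :
    CharP (IsLocalRing.ResidueField A) q := by
  rw [CharP.charP_iff_prime_eq_zero hq]
  have h1 : ((q : A) : Qbar) ∈ A.nonunits := by
    push_cast
    exact hA
  rw [ValuationSubring.coe_mem_nonunits_iff, ← IsLocalRing.residue_eq_zero_iff] at h1
  rw [← h1, map_natCast]

/-- **(L3)** An element of `A` fixed by a Frobenius element at `A` is congruent to a rational
integer. -/
theorem exists_int_sub_mem_nonunits (hq : q.Prime) (hA : A.LiesOverPrime q) {φ : GQ}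
    (hφ : A.IsFrobeniusAt φ q) {x : Qbar} (hx : x ∈ A) (hfix : φ x = x) :
    ∃ a : ℤ, x - (a : Qbar) ∈ A.nonunits := by
  have := Fact.mk hq
  have := charP_residueField hq hA
  have h1 : x - x ^ q ∈ A.nonunits := by
    have := Fermat.Agent.ES.GAL.ChebQbar23.sub_pow_mem_nonunits hφ hx
    rwa [hfix] at this
  set xA : A := ⟨x, hx⟩ with hxA
  have h2 : ((xA - xA ^ q : A) : Qbar) ∈ A.nonunits := by
    push_cast
    exact h1
  rw [ValuationSubring.coe_mem_nonunits_iff, ← IsLocalRing.residue_eq_zero_iff, map_sub, map_pow,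
    sub_eq_zero] at h2
  have h3 : IsLocalRing.residue A xA ∈ (⊥ : Subfield (IsLocalRing.ResidueField A)) :=
    (Subfield.mem_bot_iff_pow_eq_self (IsLocalRing.ResidueField A) q).mpr h2.symm
  obtain ⟨n, hn⟩ := (mem_bot_iff_intCast q (IsLocalRing.ResidueField A)).mp h3
  refine ⟨n, ?_⟩
  have h4 : IsLocalRing.residue A (xA - (n : A)) = 0 := by
    rw [map_sub, map_intCast, hn, sub_self]
  rw [IsLocalRing.residue_eq_zero_iff, ← ValuationSubring.coe_mem_nonunits_iff] at h4
  push_cast at h4
  exact h4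

/-- Integer polynomials preserve congruences modulo the maximal ideal. -/
theorem aeval_sub_aeval_mem_nonunits {x y : Qbar} (hx : x ∈ A) (hy : y ∈ A)
    (hxy : x - y ∈ A.nonunits) (P : ℤ[X]) : aeval x P - aeval y P ∈ A.nonunits := by
  induction P using Polynomial.induction_on with
  | C a =>
    rw [aeval_C, aeval_C, sub_self]
    rw [mem_nonunits_iff_lt, map_zero]
    exact zero_lt_one
  | add p r hp hr =>
    rw [map_add, map_add]
    have : aeval x p + aeval x r - (aeval y p + aeval y r) =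
        (aeval x p - aeval y p) + (aeval x r - aeval y r) := by ring
    rw [this]
    exact add_mem_nonunits hp hr
  | monomial n a h =>
    have hz : ∀ z : Qbar, aeval z (C a * X ^ (n + 1) : ℤ[X]) = aeval z (C a * X ^ n : ℤ[X]) * z := by
      intro z
      rw [pow_succ, ← mul_assoc, map_mul, aeval_X]
    rw [hz x, hz y]
    have h1 : aeval x (C a * X ^ n) * x - aeval y (C a * X ^ n) * y =
        (aeval x (C a * X ^ n) - aeval y (C a * X ^ n)) * x +
          aeval y (C a * X ^ n) * (x - y) := by ring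
    rw [h1]
    exact add_mem_nonunits (mul_mem_nonunits_right h hx)
      (mul_mem_nonunits_left (aeval_mem_valuationSubring A hy _) hxy)

/-- `aeval` of an integer polynomial at an integer. -/
theorem aeval_intCast (P : ℤ[X]) (a : ℤ) : aeval (a : Qbar) P = ((P.eval a : ℤ) : Qbar) := by
  have h := Polynomial.aeval_algebraMap_apply_eq_algebraMap_eval (A := Qbar) a P
  simpa [eq_intCast] using h

/-- If a Frobenius element at `A` (over `q ∉ {2, 3}`) moves a square root of `3`, then `3` is not a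
square modulo `q`. -/
theorem not_isSquare_three (hq : q.Prime) (hq2 : q ≠ 2) (hq3 : q ≠ 3) (hA : A.LiesOverPrime q)
    {φ : GQ} (hφ : A.IsFrobeniusAt φ q) {r : Qbar} (hr : r ^ 2 = 3) (hφr : φ r ≠ r) :
    ¬ IsSquare (3 : ZMod q) := by
  have := Fact.mk hq
  rintro ⟨b, hb⟩
  obtain ⟨m, rfl⟩ := ZMod.intCast_surjective b
  -- `q ∣ m ^ 2 - 3`
  have h1 : (q : ℤ) ∣ m ^ 2 - 3 := by
    rw [← ZMod.intCast_zmod_eq_zero_iff_dvd]
    push_cast
    rw [hb]
    ring
  have hrA : r ∈ A := by
    apply mem_valuationSubring_of_isIntegral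
    refine ⟨X ^ 2 - C 3, monic_X_pow_sub_C 3 two_ne_zero, ?_⟩
    rw [eval₂_sub, eval₂_pow, eval₂_X, eval₂_C, hr]
    simp
  have hmA : (m : Qbar) ∈ A := intCast_mem A m
  -- `φ r = - r`
  have hφr2 : φ r ^ 2 = 3 := by
    rw [← map_pow, hr]
    exact map_ofNat φ 3
  have hneg : φ r = -r := by
    have h : (φ r - r) * (φ r + r) = 0 := by
      have : (φ r - r) * (φ r + r) = φ r ^ 2 - r ^ 2 := by ring
      rw [this, hφr2, hr, sub_self]
    rcases mul_eq_zero.mp h with h | h
    · exact absurd (sub_eq_zero.mp h) hφr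
    · exact eq_neg_of_add_eq_zero_left h
  -- `r ≡ ± m`
  have h2 : ((m : Qbar) - r) * ((m : Qbar) + r) ∈ A.nonunits := by
    have : ((m : Qbar) - r) * ((m : Qbar) + r) = ((m ^ 2 - 3 : ℤ) : Qbar) := by
      push_cast
      rw [← hr]
      ring
    rw [this]
    exact intCast_mem_nonunits_of_dvd hA h1
  -- Fermat's little theorem
  have h3 : ((m : Qbar)) ^ q - (m : Qbar) ∈ A.nonunits := by
    have : (q : ℤ) ∣ m ^ q - m := by
      rw [← ZMod.intCast_zmod_eq_zero_iff_dvd]
      push_cast
      rw [ZMod.pow_card, sub_self]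
    have h := intCast_mem_nonunits_of_dvd hA this
    push_cast at h
    exact h
  have hfrob : φ r - r ^ q ∈ A.nonunits :=
    Fermat.Agent.ES.GAL.ChebQbar23.sub_pow_mem_nonunits hφ hrA
  have hodd : Odd q := hq.odd_of_ne_two hq2
  -- in both cases `r ^ q ≡ r`
  have h4 : r ^ q - r ∈ A.nonunits := by
    rcases mem_or_mem_of_mul_mem_nonunits (sub_mem hmA hrA) (add_mem hmA hrA) h2 with h | h
    · -- `m ≡ r`
      have e1 : (m : Qbar) ^ q - r ^ q ∈ A.nonunits := by
        have := aeval_sub_aeval_mem_nonunits hmA hrA h (X ^ q)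
        simpa using this
      have : r ^ q - r = -((m : Qbar) ^ q - r ^ q) + (((m : Qbar)) ^ q - (m : Qbar)) +
          ((m : Qbar) - r) := by ring
      rw [this]
      exact add_mem_nonunits (add_mem_nonunits (neg_mem_nonunits e1) h3) h
    · -- `m ≡ - r`
      have h' : (m : Qbar) - (-r) ∈ A.nonunits := by
        rwa [sub_neg_eq_add]
      have e1 : (m : Qbar) ^ q - (-r) ^ q ∈ A.nonunits := by
        have := aeval_sub_aeval_mem_nonunits hmA (neg_mem hrA) h' (X ^ q)
        simpa using this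
      rw [hodd.neg_pow] at e1
      have : r ^ q - r = ((m : Qbar) ^ q - -r ^ q) - (((m : Qbar)) ^ q - (m : Qbar)) -
          ((m : Qbar) + r) := by ring
      rw [this]
      exact sub_mem_nonunits (sub_mem_nonunits e1 h3) h
  -- hence `2 r ≡ 0`
  have h5 : (2 : Qbar) * r ∈ A.nonunits := by
    have : (2 : Qbar) * r = -((φ r - r ^ q) + (r ^ q - r)) := by
      rw [hneg]
      ring
    rw [this]
    exact neg_mem_nonunits (add_mem_nonunits hfrob h4)
  have h6 : ((12 : ℤ) : Qbar) ∈ A.nonunits := by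
    have : ((12 : ℤ) : Qbar) = (2 * r) * (2 * r) := by
      push_cast
      have : (2 * r) * (2 * r) = 4 * r ^ 2 := by ring
      rw [this, hr]
      norm_num
    rw [this]
    exact mul_mem_nonunits_left (mem_of_mem_nonunits h5) h5
  have h7 : (q : ℤ) ∣ 12 := dvd_of_intCast_mem_nonunits hq hA h6
  have h8 : q ∣ 12 := by exact_mod_cast h7
  have h9 : q ∣ 2 ^ 2 * 3 := by norm_num; exact h8
  rcases (Nat.Prime.dvd_mul hq).mp h9 with h | h
  · exact hq2 ((Nat.prime_dvd_prime_iff_eq hq Nat.prime_two).mp (hq.dvd_of_dvd_pow h))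
  · exact hq3 ((Nat.prime_dvd_prime_iff_eq hq Nat.prime_three).mp h)

end Fermat.Agent.S52K5.Local
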