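/-
S52 programme K, brick K5 (mod-3 irreducibility), helper64: the interface-independent core.

A one-parameter family of integral Weierstrass curves `W'_t` with `c₄(W'_t) = C4(t)`,
`c₆(W'_t) = C6(t)` (`C4, C6 ∈ ℚ[X]`) has a member with irreducible mod-3 representation in every
class `t ≡ 0 mod N`, provided `C6` has a root `θ ∈ ℚ̄` with `C4(θ) ≠ 0` and `√3 ∉ ℚ(θ)`
(given as: some `σ₀ ∈ Gal(ℚ̄/ℚ)` fixes `θ` and moves a square root `r` of `3`).

Proof: Chebotarev (generator form, `ES/GAL/ChebQbar23`) gives a prime `q` outside any finite set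
and a Frobenius `φ` at a valuation subring `A` over `q` generating the same subgroup of
`Gal(N/ℚ)` as `σ₀` (`N` the normal closure of `ℚ(θ, r)`), so `φ θ = θ` and `φ r ≠ r`.  Hence
`θ ≡ a mod 𝔪_A` for an integer `a`, `q ∣ C6(a)`, `q ∤ C4(a)` and `3` is a non-square mod `q`.
For `t ≡ a mod q`, `N ∣ t` the curve `W'_t` has `q ∣ c₆`, `q ∤ c₄` and
`S52K5L.Psi3NoRoot.modRepIsIrreducible_three_of_prime` (helper1) applies.
-/
import Mathlib
import Fermat.Agent.ES.GAL.ChebQbar23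
import Fermat.Agent.S52K5.Local
import Fermat.Agent.S52K5L.Psi3NoRoot

set_option autoImplicit false

open Polynomial
open Fermat.Agent.Lib.FrobeniusExists Fermat.Agent.S52K5.Local

namespace Fermat.Agent.S52K5.Cheb

attribute [local instance] isGalois_Qbar isIntegral_Qbar

/-- The restriction of `g` to a normal subfield `N` acts as `g`. -/
theorem restrict_apply (N : IntermediateField ℚ Qbar) [Normal ℚ N] (g : GQ) (x : N) :
    ((AlgEquiv.restrictNormalHom N g x : N) : Qbar) = g x :=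
  AlgEquiv.restrictNormal_commutes g N x

/-- If `h|_N` is a power of `g|_N` and `g` fixes `x ∈ N` then `h` fixes `x`. -/
theorem fix_of_mem_zpowers (N : IntermediateField ℚ Qbar) [Normal ℚ N] (g h : GQ)
    (hmem : AlgEquiv.restrictNormalHom N h ∈ Subgroup.zpowers (AlgEquiv.restrictNormalHom N g))
    {x : Qbar} (hx : x ∈ N) (hg : g x = x) : h x = x := by
  have hstab : AlgEquiv.restrictNormalHom N g ∈
      MulAction.stabilizer (N ≃ₐ[ℚ] N) (⟨x, hx⟩ : N) := by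
    rw [MulAction.mem_stabilizer_iff]
    apply Subtype.ext
    rw [AlgEquiv.smul_def, restrict_apply]
    exact hg
  have h2 := (Subgroup.zpowers_le.mpr hstab) hmem
  rw [MulAction.mem_stabilizer_iff, AlgEquiv.smul_def] at h2
  have h3 := congrArg (fun y : N => (y : Qbar)) h2
  simp only [restrict_apply] at h3
  exact h3

/-- Chebotarev: a prime `q ∉ T` and a Frobenius element `φ` at `q` fixing `θ` and moving `r`. -/
theorem exists_frobenius_fix_move (θ r : Qbar) (σ₀ : GQ) (hσθ : σ₀ θ = θ) (hσr : σ₀ r ≠ r)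
    (T : Finset ℕ) :
    ∃ (q : ℕ) (A : ValuationSubring Qbar) (φ : GQ), q.Prime ∧ q ∉ T ∧ A.LiesOverPrime q ∧
      A.IsFrobeniusAt φ q ∧ φ θ = θ ∧ φ r ≠ r := by
  classical
  set L : IntermediateField ℚ Qbar := IntermediateField.adjoin ℚ {θ, r} with hL
  have hLfin : FiniteDimensional ℚ L :=
    IntermediateField.finiteDimensional_adjoin (fun x _ => Algebra.IsIntegral.isIntegral x)
  obtain ⟨N, hfin, hnorm, hLN⟩ : ∃ N : IntermediateField ℚ Qbar,
      FiniteDimensional ℚ N ∧ Normal ℚ N ∧ L ≤ N :=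
    ⟨IntermediateField.normalClosure ℚ L Qbar, normalClosure.is_finiteDimensional ℚ L Qbar,
      normalClosure.normal ℚ L Qbar, IntermediateField.le_normalClosure L⟩
  have hgal : IsGalois ℚ N := ⟨⟩
  have hθN : θ ∈ N := hLN (IntermediateField.subset_adjoin ℚ _ (by simp))
  have hrN : r ∈ N := hLN (IntermediateField.subset_adjoin ℚ _ (by simp))
  obtain ⟨q, A, φ, hq, hqT, hA, hφ, hgen⟩ :=
    Fermat.Agent.ES.GAL.ChebQbar23.exists_frobenius_zpowers_eq N
      (AlgEquiv.restrictNormalHom N σ₀) T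
  refine ⟨q, A, φ, hq, hqT, hA, hφ, ?_, ?_⟩
  · refine fix_of_mem_zpowers N σ₀ φ ?_ hθN hσθ
    rw [← hgen]
    exact Subgroup.mem_zpowers _
  · intro hφr
    refine hσr (fix_of_mem_zpowers N φ σ₀ ?_ hrN hφr)
    rw [hgen]
    exact Subgroup.mem_zpowers _

/-- **(K5a), integral form.**  If `P6` has a root `θ` with `P4(θ) ≠ 0` and some `σ₀` fixes `θ` and
moves `√3`, then outside any finite set there is a prime `q` modulo which `3` is a non-square and
`P6` has a root `a` with `P4(a) ≢ 0`. -/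
theorem exists_prime_root (P4 P6 : ℤ[X]) (θ r : Qbar) (h6 : aeval θ P6 = 0)
    (h4 : aeval θ P4 ≠ 0) (hr : r ^ 2 = 3) (σ₀ : GQ) (hσθ : σ₀ θ = θ) (hσr : σ₀ r ≠ r)
    (S : Finset ℕ) :
    ∃ q : ℕ, q.Prime ∧ q ∉ S ∧ ¬ IsSquare (3 : ZMod q) ∧
      ∃ a : ℤ, (q : ℤ) ∣ P6.eval a ∧ ¬ (q : ℤ) ∣ P4.eval a := by
  classical
  obtain ⟨d1, hd1, hθA⟩ := exists_nat_forall_mem θ
  obtain ⟨d2, hd2, hβA⟩ := exists_nat_forall_mem (aeval θ P4)⁻¹
  set T : Finset ℕ := S ∪ {2, 3} ∪ d1.primeFactors ∪ d2.primeFactors with hT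
  obtain ⟨q, A, φ, hq, hqT, hA, hφ, hφθ, hφr⟩ := exists_frobenius_fix_move θ r σ₀ hσθ hσr T
  have hqS : q ∉ S := fun h => hqT (by simp [hT, h])
  have hq2 : q ≠ 2 := fun h => hqT (by simp [hT, h])
  have hq3 : q ≠ 3 := fun h => hqT (by simp [hT, h])
  have hqd1 : ¬ q ∣ d1 := fun h => hqT (by simp [hT, hq, h, hd1])
  have hqd2 : ¬ q ∣ d2 := fun h => hqT (by simp [hT, hq, h, hd2])
  have hθ : θ ∈ A := hθA A q hq hA hqd1
  have hβ : (aeval θ P4)⁻¹ ∈ A := hβA A q hq hA hqd2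
  obtain ⟨a, ha⟩ := exists_int_sub_mem_nonunits hq hA hφ hθ hφθ
  have haA : (a : Qbar) ∈ A := intCast_mem A a
  refine ⟨q, hq, hqS, not_isSquare_three hq hq2 hq3 hA hφ hr hφr, a, ?_, ?_⟩
  · apply dvd_of_intCast_mem_nonunits hq hA
    have h1 := aeval_sub_aeval_mem_nonunits hθ haA ha P6
    rw [h6, zero_sub, aeval_intCast] at h1
    have h2 := neg_mem_nonunits h1
    rwa [neg_neg] at h2
  · intro hdvd
    have h1 : ((P4.eval a : ℤ) : Qbar) ∈ A.nonunits := intCast_mem_nonunits_of_dvd hA hdvd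
    have h2 := aeval_sub_aeval_mem_nonunits hθ haA ha P4
    rw [aeval_intCast] at h2
    have h3 : aeval θ P4 ∈ A.nonunits := by
      have := add_mem_nonunits h2 h1
      rwa [sub_add_cancel] at this
    have h5 : aeval θ P4 * (aeval θ P4)⁻¹ ∈ A.nonunits := mul_mem_nonunits_right h3 hβ
    rw [mul_inv_cancel₀ h4] at h5
    exact one_not_mem_nonunits h5

/-- Clearing denominators of a rational polynomial. -/
theorem exists_int_poly (C : ℚ[X]) :
    ∃ (b : ℤ) (P : ℤ[X]), b ≠ 0 ∧ P.map (Int.castRingHom ℚ) = b • C := by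
  obtain ⟨b, hbM, hb⟩ := IsLocalization.integerNormalization_spec (nonZeroDivisors ℤ) C
  exact ⟨b, IsLocalization.integerNormalization (nonZeroDivisors ℤ) C,
    nonZeroDivisors.ne_zero hbM, hb⟩

theorem aeval_of_map_eq {b : ℤ} {P : ℤ[X]} {C : ℚ[X]}
    (h : P.map (Int.castRingHom ℚ) = b • C) (x : Qbar) :
    aeval x P = (b : Qbar) * aeval x C := by
  have h1 : aeval x (P.map (algebraMap ℤ ℚ)) = aeval x P := aeval_map_algebraMap ℚ x P
  have h2 : (algebraMap ℤ ℚ) = Int.castRingHom ℚ := rfl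
  rw [← h1, h2, h, map_zsmul, zsmul_eq_mul]

theorem eval_of_map_eq {b : ℤ} {P : ℤ[X]} {C : ℚ[X]}
    (h : P.map (Int.castRingHom ℚ) = b • C) (t : ℤ) :
    ((P.eval t : ℤ) : ℚ) = (b : ℚ) * C.eval (t : ℚ) := by
  have h1 : (P.map (Int.castRingHom ℚ)).eval ((t : ℤ) : ℚ) = Int.castRingHom ℚ (P.eval t) :=
    Polynomial.eval_intCast_map (Int.castRingHom ℚ) P t
  rw [h, eval_smul, zsmul_eq_mul] at h1
  rw [h1]
  rfl

/-- **(K5a+b)**  The interface-independent core of K5. -/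
theorem exists_irreducible_three (C4 C6 : ℚ[X]) (N : ℕ) (hN : 0 < N) (θ r : Qbar)
    (hθ6 : aeval θ C6 = 0) (hθ4 : aeval θ C4 ≠ 0) (hr : r ^ 2 = 3) (σ₀ : GQ) (hσθ : σ₀ θ = θ)
    (hσr : σ₀ r ≠ r) :
    ∃ t : ℤ, (N : ℤ) ∣ t ∧ ∀ W' : WeierstrassCurve ℤ, W'.Δ ≠ 0 →
      (W'.c₄ : ℚ) = C4.eval (t : ℚ) → (W'.c₆ : ℚ) = C6.eval (t : ℚ) →
      W'.ModRepIsIrreducible 3 := by
  classical
  obtain ⟨b4, P4, hb4, hP4⟩ := exists_int_poly C4
  obtain ⟨b6, P6, hb6, hP6⟩ := exists_int_poly C6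
  have h6 : aeval θ P6 = 0 := by
    rw [aeval_of_map_eq hP6, hθ6, mul_zero]
  have h4 : aeval θ P4 ≠ 0 := by
    rw [aeval_of_map_eq hP4]
    exact mul_ne_zero (by exact_mod_cast hb4) hθ4
  set S : Finset ℕ := (b4.natAbs * b6.natAbs * N).primeFactors with hS
  obtain ⟨q, hq, hqS, h3, a, ha6, ha4⟩ :=
    exists_prime_root P4 P6 θ r h6 h4 hr σ₀ hσθ hσr S
  have hqZ : Prime (q : ℤ) := Nat.prime_iff_prime_int.mp hq
  have hprod : b4.natAbs * b6.natAbs * N ≠ 0 :=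
    mul_ne_zero (mul_ne_zero (Int.natAbs_ne_zero.mpr hb4) (Int.natAbs_ne_zero.mpr hb6)) hN.ne'
  have hqprod : ¬ q ∣ b4.natAbs * b6.natAbs * N := fun h =>
    hqS (Nat.mem_primeFactors.mpr ⟨hq, h, hprod⟩)
  have hqb4 : ¬ (q : ℤ) ∣ b4 := fun h => hqprod
    (Dvd.dvd.mul_right (Dvd.dvd.mul_right (Int.natCast_dvd.mp h) _) _)
  have hqb6 : ¬ (q : ℤ) ∣ b6 := fun h => hqprod
    (Dvd.dvd.mul_right (Dvd.dvd.mul_left (Int.natCast_dvd.mp h) _) _)
  have hqN : ¬ (q : ℤ) ∣ (N : ℤ) := fun h => hqprod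
    (Dvd.dvd.mul_left (Int.natCast_dvd_natCast.mp h) _)
  -- CRT
  obtain ⟨u, v, huv⟩ : IsCoprime (q : ℤ) (N : ℤ) := hqZ.coprime_iff_not_dvd.mpr hqN
  set t : ℤ := a * (v * N) with ht
  have htN : (N : ℤ) ∣ t := ⟨a * v, by rw [ht]; ring⟩
  have hta : (q : ℤ) ∣ t - a := ⟨-(a * u), by rw [ht]; linear_combination a * huv⟩
  refine ⟨t, htN, fun W' hΔ hc4 hc6 => ?_⟩
  have e6 : P6.eval t = b6 * W'.c₆ := by
    have := eval_of_map_eq hP6 t
    rw [← hc6] at this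
    exact_mod_cast this
  have e4 : P4.eval t = b4 * W'.c₄ := by
    have := eval_of_map_eq hP4 t
    rw [← hc4] at this
    exact_mod_cast this
  have d6 : (q : ℤ) ∣ P6.eval t := by
    have h1 : (q : ℤ) ∣ P6.eval t - P6.eval a := hta.trans (Polynomial.sub_dvd_eval_sub t a P6)
    have := dvd_add h1 ha6
    rwa [sub_add_cancel] at this
  have d4 : ¬ (q : ℤ) ∣ P4.eval t := by
    intro h
    have h1 : (q : ℤ) ∣ P4.eval t - P4.eval a := hta.trans (Polynomial.sub_dvd_eval_sub t a P4)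
    apply ha4
    have := dvd_sub h h1
    rwa [sub_sub_cancel] at this
  have hc6' : (q : ℤ) ∣ W'.c₆ := by
    rw [e6] at d6
    exact (hqZ.dvd_or_dvd d6).resolve_left hqb6
  have hc4' : ¬ (q : ℤ) ∣ W'.c₄ := by
    intro h
    apply d4
    rw [e4]
    exact Dvd.dvd.mul_left h _
  exact Fermat.Agent.S52K5L.Psi3NoRoot.modRepIsIrreducible_three_of_prime W' hΔ hq hc6' hc4' h3

end Fermat.Agent.S52K5.Cheb
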