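/-
S52 programme K, brick K5 (mod-3 irreducibility), helper64: the Klein-form part.

Klein's edge form `T` vanishes at `(i, 1)`, the face form `H` does not.  Hence along the line
`v_x = v₀ + x v₁` (`v₁ = (f₂, -f₁)(v₀)`, `det (v₀, v₁) = -12 f(v₀) ≠ 0`) the parameter
`θ = (i z₂ - z₁) / (w₁ - i w₂)` (or the same with `-i`) satisfies `T(v_θ) = 0`, `H(v_θ) ≠ 0`.
If `ρ ∈ Gal(ℚ̄/ℚ)` fixes `i` and multiplies `v₀` by a `10`-th root of unity, then `ρ θ = θ`.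

`exists_irreducible_three_klein` combines this with `Cheb.exists_irreducible_three`, in exactly
the shape of the output of K4 (`S52K4.Main.exists_model_of_klein`).
-/
import Mathlib
import Fermat.Agent.S52K4.Klein
import Fermat.Agent.S52K4.RatPoly
import Fermat.Agent.S52K5.Cheb

set_option autoImplicit false

open Polynomial
open Fermat.Agent.S52K4.Klein
open Fermat.Agent.Lib.FrobeniusExists

namespace Fermat.Agent.S52K5.Theta

section Forms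

variable {K : Type*} [Field K]

theorem kf1_smul (c z₁ z₂ : K) : kf1 (c * z₁) (c * z₂) = c ^ 11 * kf1 z₁ z₂ := by
  unfold kf1; ring

theorem kf2_smul (c z₁ z₂ : K) : kf2 (c * z₁) (c * z₂) = c ^ 11 * kf2 z₁ z₂ := by
  unfold kf2; ring

theorem I_pow_five {I : K} (hI : I ^ 2 = -1) : I ^ 5 = I := by
  have : I ^ 5 = (I ^ 2) ^ 2 * I := by ring
  rw [this, hI]; ring

/-- `T(i, 1) = 0`. -/
theorem kT_I_one {I : K} (hI : I ^ 2 = -1) : kT I 1 = 0 := by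
  unfold kT
  rw [I_pow_five hI, one_pow]
  have : tXY I (1 : K) = (I ^ 2 + 1) * (I ^ 4 + 522 * I ^ 3 - 10006 * I ^ 2 - 522 * I + 1) := by
    unfold tXY; ring
  rw [this, hI]; ring

/-- `H(i, 1) = 492 - 456 i`. -/
theorem kH_I_one {I : K} (hI : I ^ 2 = -1) : kH I 1 = 492 - 456 * I := by
  unfold kH
  rw [I_pow_five hI, one_pow]
  have : hXY I (1 : K) = 492 - 456 * I + (I ^ 2 + 1) * (-I ^ 2 + 228 * I - 493) := by
    unfold hXY; ring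
  rw [this, hI]; ring

theorem kH_I_one_ne_zero [CharZero K] {I : K} (hI : I ^ 2 = -1) : kH I 1 ≠ 0 := by
  rw [kH_I_one hI]
  intro h
  have h1 : (492 - 456 * I) * (492 + 456 * I) = 450000 := by
    have : (492 - 456 * I) * (492 + 456 * I) = 492 ^ 2 - 456 ^ 2 * I ^ 2 := by ring
    rw [this, hI]; norm_num
  rw [h, zero_mul] at h1
  norm_num at h1

theorem kT_I_mul {I : K} (hI : I ^ 2 = -1) (c : K) : kT (I * c) c = 0 := by
  have h := kT_smul c I 1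
  rw [mul_one, mul_comm c I] at h
  rw [h, kT_I_one hI, mul_zero]

theorem kH_I_mul_ne_zero [CharZero K] {I : K} (hI : I ^ 2 = -1) {c : K} (hc : c ≠ 0) :
    kH (I * c) c ≠ 0 := by
  have h := kH_smul c I 1
  rw [mul_one, mul_comm c I] at h
  rw [h]
  exact mul_ne_zero (pow_ne_zero _ hc) (kH_I_one_ne_zero hI)

/-- The parameter `θ` on the line `v₀ + x v₁` at which `T` vanishes. -/
theorem theta_spec [CharZero K] {z₁ z₂ w₁ w₂ I : K} (hI : I ^ 2 = -1)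
    (hdet : z₁ * w₂ - z₂ * w₁ ≠ 0) (hne : w₁ - I * w₂ ≠ 0) :
    kT (z₁ + (I * z₂ - z₁) / (w₁ - I * w₂) * w₁) (z₂ + (I * z₂ - z₁) / (w₁ - I * w₂) * w₂) = 0 ∧
      kH (z₁ + (I * z₂ - z₁) / (w₁ - I * w₂) * w₁)
        (z₂ + (I * z₂ - z₁) / (w₁ - I * w₂) * w₂) ≠ 0 := by
  set θ : K := (I * z₂ - z₁) / (w₁ - I * w₂) with hθ
  set c : K := z₂ + θ * w₂ with hc
  have h1 : z₁ + θ * w₁ = I * c := by
    have : θ * (w₁ - I * w₂) = I * z₂ - z₁ := by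
      rw [hθ]; field_simp
    rw [hc]; linear_combination this
  have hc0 : c ≠ 0 := by
    intro h0
    apply hdet
    have e1 : z₁ = -(θ * w₁) := by
      have := h1
      rw [h0, mul_zero] at this
      linear_combination this
    have e2 : z₂ = -(θ * w₂) := by
      have := h0
      rw [hc] at this
      linear_combination this
    rw [e1, e2]; ring
  rw [h1]
  exact ⟨kT_I_mul hI c, kH_I_mul_ne_zero hI hc0⟩

end Forms

/-- A `ρ` which fixes `I` and scales `(z₁, z₂, w₁, w₂)` by `μ ≠ 0` fixes `θ`. -/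
theorem rho_theta {z₁ z₂ w₁ w₂ I μ : Qbar} (ρ : GQ) (hμ : μ ≠ 0) (hz₁ : ρ z₁ = μ * z₁)
    (hz₂ : ρ z₂ = μ * z₂) (hw₁ : ρ w₁ = μ * w₁) (hw₂ : ρ w₂ = μ * w₂) (hρI : ρ I = I) :
    ρ ((I * z₂ - z₁) / (w₁ - I * w₂)) = (I * z₂ - z₁) / (w₁ - I * w₂) := by
  rw [map_div₀, map_sub, map_sub, map_mul, map_mul, hz₁, hz₂, hw₁, hw₂, hρI]
  have e1 : I * (μ * z₂) - μ * z₁ = μ * (I * z₂ - z₁) := by ring
  have e2 : μ * w₁ - I * (μ * w₂) = μ * (w₁ - I * w₂) := by ring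
  rw [e1, e2, mul_div_mul_left _ _ hμ]

/-- Existence of `θ` fixed by `ρ` with `T(v_θ) = 0`, `H(v_θ) ≠ 0`. -/
theorem exists_theta {z₁ z₂ I μ : Qbar} (hI : I ^ 2 = -1) (hf : kf z₁ z₂ ≠ 0) (ρ : GQ)
    (hμ : μ ^ 10 = 1) (hz₁ : ρ z₁ = μ * z₁) (hz₂ : ρ z₂ = μ * z₂) (hρI : ρ I = I) :
    ∃ θ : Qbar, ρ θ = θ ∧
      kT (z₁ + θ * kf2 z₁ z₂) (z₂ + θ * -kf1 z₁ z₂) = 0 ∧
      kH (z₁ + θ * kf2 z₁ z₂) (z₂ + θ * -kf1 z₁ z₂) ≠ 0 := by
  have hμ0 : μ ≠ 0 := by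
    rintro rfl
    norm_num at hμ
  have hμ11 : μ ^ 11 = μ := by
    rw [pow_succ, hμ, one_mul]
  set w₁ : Qbar := kf2 z₁ z₂ with hw₁d
  set w₂ : Qbar := -kf1 z₁ z₂ with hw₂d
  have hk2 : ρ (kf2 z₁ z₂) = kf2 (ρ z₁) (ρ z₂) := map_kf2 ρ.toAlgHom.toRingHom z₁ z₂
  have hk1 : ρ (kf1 z₁ z₂) = kf1 (ρ z₁) (ρ z₂) := map_kf1 ρ.toAlgHom.toRingHom z₁ z₂
  have hw₁ : ρ w₁ = μ * w₁ := by
    rw [hw₁d, hk2, hz₁, hz₂, kf2_smul, hμ11]
  have hw₂ : ρ w₂ = μ * w₂ := by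
    rw [hw₂d, map_neg, hk1, hz₁, hz₂, kf1_smul, hμ11]; ring
  have hdet : z₁ * w₂ - z₂ * w₁ ≠ 0 := by
    rw [hw₁d, hw₂d, det_covariant, neg_ne_zero]
    exact mul_ne_zero (by norm_num) hf
  by_cases hne : w₁ - I * w₂ = 0
  · -- use `-I`
    have hI' : (-I) ^ 2 = -1 := by rw [neg_sq]; exact hI
    have hne' : w₁ - (-I) * w₂ ≠ 0 := by
      intro h
      apply hdet
      have e1 : w₁ = 0 := by linear_combination (1 / 2 : Qbar) * hne + (1 / 2 : Qbar) * h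
      have hI0 : I ≠ 0 := by
        rintro rfl
        norm_num at hI
      have e2 : I * w₂ = 0 := by linear_combination (-1 / 2 : Qbar) * hne + (1 / 2 : Qbar) * h
      have e3 : w₂ = 0 := (mul_eq_zero.mp e2).resolve_left hI0
      rw [e1, e3]; ring
    have hρI' : ρ (-I) = -I := by rw [map_neg, hρI]
    exact ⟨_, rho_theta ρ hμ0 hz₁ hz₂ hw₁ hw₂ hρI', theta_spec hI' hdet hne'⟩
  · exact ⟨_, rho_theta ρ hμ0 hz₁ hz₂ hw₁ hw₂ hρI, theta_spec hI hdet hne⟩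

/-- **K5, Klein form.**  In the shape of the output of `S52K4.Main.exists_model_of_klein`. -/
theorem exists_irreducible_three_klein {z₁ z₂ : Qbar} {s : ℤ} (hs : s = 1 ∨ s = -1)
    (hf : kf z₁ z₂ ≠ 0)
    (hrat4 : ∀ t : ℤ, ∃ c : ℚ, (c : Qbar) = -kH (z₁ + t * kf2 z₁ z₂) (z₂ + t * -kf1 z₁ z₂))
    (hrat6 : ∀ t : ℤ, ∃ c : ℚ, (c : Qbar) = kT (z₁ + t * kf2 z₁ z₂) (z₂ + t * -kf1 z₁ z₂))
    {I r μ : Qbar} (hI : I ^ 2 = -1) (hr : r ^ 2 = 3) (hμ : μ ^ 10 = 1) (ρ : GQ)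
    (hz₁ : ρ z₁ = μ * z₁) (hz₂ : ρ z₂ = μ * z₂) (hρI : ρ I = I) (hρr : ρ r ≠ r)
    (N : ℤ) (hN : 0 < N) :
    ∃ t : ℤ, N ∣ t ∧ ∀ W' : WeierstrassCurve ℤ, W'.Δ ≠ 0 →
      ((W'.c₄ : ℤ) : Qbar) = -kH (z₁ + t * kf2 z₁ z₂) (z₂ + t * -kf1 z₁ z₂) →
      ((W'.c₆ : ℤ) : Qbar) = s * kT (z₁ + t * kf2 z₁ z₂) (z₂ + t * -kf1 z₁ z₂) →
      W'.ModRepIsIrreducible 3 := by
  have hs0 : (s : Qbar) ≠ 0 := by rcases hs with rfl | rfl <;> norm_num
  -- the two polynomials over `ℚ̄`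
  let P4 : Qbar[X] := -kH (C z₁ + X * C (kf2 z₁ z₂)) (C z₂ + X * C (-kf1 z₁ z₂))
  let P6 : Qbar[X] := C (s : Qbar) * kT (C z₁ + X * C (kf2 z₁ z₂)) (C z₂ + X * C (-kf1 z₁ z₂))
  have e4 : ∀ x : Qbar, P4.eval x = -kH (z₁ + x * kf2 z₁ z₂) (z₂ + x * -kf1 z₁ z₂) := by
    intro x
    have := map_kH (Polynomial.evalRingHom x) (C z₁ + X * C (kf2 z₁ z₂))
      (C z₂ + X * C (-kf1 z₁ z₂))
    simp only [Polynomial.coe_evalRingHom, Polynomial.eval_add, Polynomial.eval_mul,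
      Polynomial.eval_C, Polynomial.eval_X] at this
    simp only [P4, Polynomial.eval_neg, this]
  have e6 : ∀ x : Qbar, P6.eval x = s * kT (z₁ + x * kf2 z₁ z₂) (z₂ + x * -kf1 z₁ z₂) := by
    intro x
    have := map_kT (Polynomial.evalRingHom x) (C z₁ + X * C (kf2 z₁ z₂))
      (C z₂ + X * C (-kf1 z₁ z₂))
    simp only [Polynomial.coe_evalRingHom, Polynomial.eval_add, Polynomial.eval_mul,
      Polynomial.eval_C, Polynomial.eval_X] at this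
    simp only [P6, Polynomial.eval_mul, Polynomial.eval_C, this]
  obtain ⟨Q4, hQ4⟩ := Fermat.Agent.S52K4.RatPoly.exists_map_eq_of_forall_eval_int P4 (fun t => by
    obtain ⟨c, hc⟩ := hrat4 t; exact ⟨c, by rw [hc, e4]⟩)
  obtain ⟨Q6, hQ6⟩ := Fermat.Agent.S52K4.RatPoly.exists_map_eq_of_forall_eval_int P6 (fun t => by
    obtain ⟨c, hc⟩ := hrat6 t; exact ⟨(s : ℚ) * c, by rw [e6, ← hc]; push_cast; ring⟩)
  have a4 : ∀ x : Qbar, aeval x Q4 = P4.eval x := fun x => by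
    rw [← hQ4, Polynomial.eval_map, Polynomial.aeval_def]
  have a6 : ∀ x : Qbar, aeval x Q6 = P6.eval x := fun x => by
    rw [← hQ6, Polynomial.eval_map, Polynomial.aeval_def]
  have cast_eval : ∀ (Q : ℚ[X]) (t : ℤ), ((Q.eval (t : ℚ) : ℚ) : Qbar) = aeval (t : Qbar) Q := by
    intro Q t
    have e : ((t : ℤ) : Qbar) = algebraMap ℚ Qbar (t : ℚ) := by
      rw [eq_ratCast]; push_cast; rfl
    rw [e, Polynomial.aeval_algebraMap_apply, eq_ratCast]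
    rfl
  obtain ⟨θ, hρθ, hθT, hθH⟩ := exists_theta hI hf ρ hμ hz₁ hz₂ hρI
  have hθ6 : aeval θ Q6 = 0 := by rw [a6, e6, hθT, mul_zero]
  have hθ4 : aeval θ Q4 ≠ 0 := by rw [a4, e4]; exact neg_ne_zero.mpr hθH
  obtain ⟨t, htN, ht⟩ := Cheb.exists_irreducible_three Q4 Q6 N.toNat
    (by omega) θ r hθ6 hθ4 hr ρ hρθ hρr
  refine ⟨t, ?_, fun W' hΔ h4 h6 => ht W' hΔ ?_ ?_⟩
  · rwa [Int.toNat_of_nonneg hN.le] at htN
  · have inj : Function.Injective ((↑) : ℚ → Qbar) := Rat.cast_injective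
    apply inj
    rw [cast_eval, a4, e4, ← h4]
    norm_cast
  · have inj : Function.Injective ((↑) : ℚ → Qbar) := Rat.cast_injective
    apply inj
    rw [cast_eval, a6, e6, ← h6]
    norm_cast

end Fermat.Agent.S52K5.Theta
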