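/-
S52 programme K, brick K5 (mod-3 irreducibility), helper64: the statements in the exact shape of
the field `irr` of `S52Top.CoreAsm.FamilyData` (helper13).

* `irr_of_root`  : polynomial family `t ↦ (C4.eval t, C6.eval t)`, `C4 C6 : ℚ[X]`, a root `θ` of
  `C6` with `C4 θ ≠ 0` and `σ₀` fixing `θ` and moving `√3`;
* `irr_klein`    : the Klein pencil `v_x = v₀ + x (f₂, -f₁)(v₀)`, `C4 = -H(v_x)`, `C6 = s T(v_x)`, with
  `ρ` fixing `i`, moving `√3` and multiplying `v₀` by a `10`-th root of unity.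
-/
import Mathlib
import Fermat.Agent.S52K5.Theta

set_option autoImplicit false

open Polynomial
open Fermat.Agent.S52K4.Klein
open Fermat.Agent.Lib.FrobeniusExists

namespace Fermat.Agent.S52K5.Irr

open Fermat.Agent.S52K5.Cheb

/-- **K5 in the `irr` shape**, polynomial family. -/
theorem irr_of_root (C4 C6 : ℚ[X]) (θ r : Qbar) (hθ6 : aeval θ C6 = 0) (hθ4 : aeval θ C4 ≠ 0)
    (hr : r ^ 2 = 3) (σ₀ : GQ) (hσθ : σ₀ θ = θ) (hσr : σ₀ r ≠ r) (N : ℤ) (hN : 0 < N) :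
    ∃ (q : ℕ) (tq : ℤ), q.Prime ∧ ¬ (q : ℤ) ∣ N ∧
      ∀ t : ℤ, (q : ℤ) ∣ t - tq → ∀ W' : WeierstrassCurve ℤ, W'.Δ ≠ 0 →
        (W'.c₄ : ℚ) = C4.eval (t : ℚ) → (W'.c₆ : ℚ) = C6.eval (t : ℚ) →
        W'.ModRepIsIrreducible 3 := by
  classical
  obtain ⟨b4, P4, hb4, hP4⟩ := exists_int_poly C4
  obtain ⟨b6, P6, hb6, hP6⟩ := exists_int_poly C6
  have h6 : aeval θ P6 = 0 := by
    rw [aeval_of_map_eq hP6, hθ6, mul_zero]
  have h4 : aeval θ P4 ≠ 0 := by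
    rw [aeval_of_map_eq hP4]
    exact mul_ne_zero (by exact_mod_cast hb4) hθ4
  set S : Finset ℕ := (b4.natAbs * b6.natAbs * N.natAbs).primeFactors with hS
  obtain ⟨q, hq, hqS, h3, a, ha6, ha4⟩ :=
    exists_prime_root P4 P6 θ r h6 h4 hr σ₀ hσθ hσr S
  have hqZ : Prime (q : ℤ) := Nat.prime_iff_prime_int.mp hq
  have hprod : b4.natAbs * b6.natAbs * N.natAbs ≠ 0 :=
    mul_ne_zero (mul_ne_zero (Int.natAbs_ne_zero.mpr hb4) (Int.natAbs_ne_zero.mpr hb6))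
      (Int.natAbs_ne_zero.mpr hN.ne')
  have hqprod : ¬ q ∣ b4.natAbs * b6.natAbs * N.natAbs := fun h =>
    hqS (Nat.mem_primeFactors.mpr ⟨hq, h, hprod⟩)
  have hqb4 : ¬ (q : ℤ) ∣ b4 := fun h => hqprod
    (Dvd.dvd.mul_right (Dvd.dvd.mul_right (Int.natCast_dvd.mp h) _) _)
  have hqb6 : ¬ (q : ℤ) ∣ b6 := fun h => hqprod
    (Dvd.dvd.mul_right (Dvd.dvd.mul_left (Int.natCast_dvd.mp h) _) _)
  have hqN : ¬ (q : ℤ) ∣ N := fun h => hqprod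
    (Dvd.dvd.mul_left (Int.natCast_dvd.mp h) _)
  refine ⟨q, a, hq, hqN, fun t hta W' hΔ hc4 hc6 => ?_⟩
  have e6 : P6.eval t = b6 * W'.c₆ := by
    have := eval_of_map_eq hP6 t
    rw [← hc6] at this
    exact_mod_cast this
  have e4 : P4.eval t = b4 * W'.c₄ := by
    have := eval_of_map_eq hP4 t
    rw [← hc4] at this
    exact_mod_cast this
  have d6 : (q : ℤ) ∣ P6.eval t := by
    have h1 : (q : ℤ) ∣ P6.eval t - P6.eval a := hta.trans (Polynomial.sub_dvd_eval_sub t a P6)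
    have := dvd_add h1 ha6
    rwa [sub_add_cancel] at this
  have d4 : ¬ (q : ℤ) ∣ P4.eval t := by
    intro h
    have h1 : (q : ℤ) ∣ P4.eval t - P4.eval a := hta.trans (Polynomial.sub_dvd_eval_sub t a P4)
    apply ha4
    have := dvd_sub h h1
    rwa [sub_sub_cancel] at this
  have hc6' : (q : ℤ) ∣ W'.c₆ := by
    rw [e6] at d6
    exact (hqZ.dvd_or_dvd d6).resolve_left hqb6
  have hc4' : ¬ (q : ℤ) ∣ W'.c₄ := by
    intro h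
    apply d4
    rw [e4]
    exact Dvd.dvd.mul_left h _
  exact Fermat.Agent.S52K5L.Psi3NoRoot.modRepIsIrreducible_three_of_prime W' hΔ hq hc6' hc4' h3

/-- **K5 in the `irr` shape**, Klein pencil.  `Q4 Q6 : ℚ[X]` are the rational polynomials with
`Q4(x) = -H(v_x)`, `Q6(x) = s T(v_x)`, `v_x = (z₁ + x f₂(v₀), z₂ - x f₁(v₀))`. -/
theorem irr_klein {z₁ z₂ : Qbar} {s : ℤ} (hf : kf z₁ z₂ ≠ 0)
    (Q4 Q6 : ℚ[X])
    (hQ4 : ∀ x : Qbar, aeval x Q4 = -kH (z₁ + x * kf2 z₁ z₂) (z₂ + x * -kf1 z₁ z₂))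
    (hQ6 : ∀ x : Qbar, aeval x Q6 = s * kT (z₁ + x * kf2 z₁ z₂) (z₂ + x * -kf1 z₁ z₂))
    {I r μ : Qbar} (hI : I ^ 2 = -1) (hr : r ^ 2 = 3) (hμ : μ ^ 10 = 1) (ρ : GQ)
    (hz₁ : ρ z₁ = μ * z₁) (hz₂ : ρ z₂ = μ * z₂) (hρI : ρ I = I) (hρr : ρ r ≠ r)
    (N : ℤ) (hN : 0 < N) :
    ∃ (q : ℕ) (tq : ℤ), q.Prime ∧ ¬ (q : ℤ) ∣ N ∧
      ∀ t : ℤ, (q : ℤ) ∣ t - tq → ∀ W' : WeierstrassCurve ℤ, W'.Δ ≠ 0 →
        (W'.c₄ : ℚ) = Q4.eval (t : ℚ) → (W'.c₆ : ℚ) = Q6.eval (t : ℚ) →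
        W'.ModRepIsIrreducible 3 := by
  obtain ⟨θ, hρθ, hθT, hθH⟩ := Theta.exists_theta hI hf ρ hμ hz₁ hz₂ hρI
  have hθ6 : aeval θ Q6 = 0 := by rw [hQ6, hθT, mul_zero]
  have hθ4 : aeval θ Q4 ≠ 0 := by rw [hQ4]; exact neg_ne_zero.mpr hθH
  exact irr_of_root Q4 Q6 θ r hθ6 hθ4 hr ρ hρθ hρr N hN

end Fermat.Agent.S52K5.Irr
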