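/-
S52 programme K, brick K5 (mod-3 irreducibility), helper64: the element `ρ = τ⁵`.

`W` a semistable integral model (`Δ ≠ 0`), `v₀` a point of the Klein fibre over `(-c₄(W), c₆(W))`.
Take a valuation subring `A` of `ℚ̄` over `3` and `τ` in its inertia group with `τ √3 = -√3`
(`S52K5L.Ram3`, helper1).  Then `τ` fixes `ζ₅` and `i` (`ES.P36.ZetaUnr26`), and it fixes a nonzero
`5`-torsion point of `W(ℚ̄)` (hypothesis `FixedFive W`: the leaf L6a of helper1, from the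
`InertiaMult`/`InertiaAsm` bricks of the S58 squad).  By `S52K3.Sigma0Int.gal_pow_five_int`
(helper6) `τ⁵ v₀ = ζ^k v₀`.  So `ρ := τ⁵` multiplies `v₀` by a `10`-th root of unity, fixes all
fourth roots of unity and moves `√3`: exactly the input of `S52K5.Irr.irr_klein`.

* `exists_rho`        : the element `ρ`;
* `irr_of_kleinData`  : the field `irr` of `S52Top.CoreAsm.FamilyData` from `KleinData` +
  `Fibres` + `Ext` and the pencil polynomials of `S52K4.Pencil.exists_pencil`.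
-/
import Mathlib
import Fermat.Agent.S52K3.Sigma0Int
import Fermat.Agent.S52K5L.Ram3
import Fermat.Agent.ES.P36.ZetaUnr26
import Fermat.Agent.S52K.SemistableC4C6
import Fermat.Agent.Lib.FrobeniusExists
import Fermat.Agent.S52K5L.InertFix
import Fermat.Agent.S52K5.Irr

set_option autoImplicit false

open WeierstrassCurve WeierstrassCurve.Affine

namespace Fermat.Agent.S52K5.Rho

open Fermat.Agent.S52K3

/-- (L6a) at every place over `3` the inertia group fixes a nonzero `5`-torsion point. -/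
def FixedFive (W : WeierstrassCurve ℤ) : Prop :=
  ∀ A : ValuationSubring Qb, A.LiesOverPrime 3 →
    ∃ P : ((W.map (Int.castRingHom ℚ))⁄Qb).Point, P ≠ 0 ∧ (5 : ℕ) • P = 0 ∧
      ∀ τ ∈ A.inertiaSubgroupIn ℚ, τ • P = P

/-- **The element `ρ`.** -/
theorem exists_rho_of_fixed (D : KleinData) (hD : D.Fibres) (hE : D.Ext) (hζ : D.ζ ^ 5 = 1)
    (W : WeierstrassCurve ℤ) (hΔ : W.Δ ≠ 0) (hss : W.IsSemistableModel) (hfix : FixedFive W)
    {v₀ : V2} (hH : D.H v₀ = -((W.c₄ : ℤ) : Qb)) (hT : D.T v₀ = ((W.c₆ : ℤ) : Qb))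
    {r : Qb} (hr : r ^ 2 = 3) :
    ∃ (ρ : GQ) (μ : Qb), μ ^ 10 = 1 ∧ ρ v₀.1 = μ * v₀.1 ∧ ρ v₀.2 = μ * v₀.2 ∧
      (∀ c : Qb, c ^ 4 = 1 → ρ c = c) ∧ ρ r ≠ r := by
  obtain ⟨A, hA⟩ :=
    Fermat.Agent.Lib.FrobeniusExists.exists_valuationSubring_liesOverPrime 3 Nat.prime_three
  have hr' : r ^ 2 = ((3 : ℕ) : Qb) := by rw [hr]; norm_num
  obtain ⟨τ, hτ, hτr⟩ := Fermat.Agent.S52K5L.Ram3.exists_inertia_neg Nat.prime_three hA hr'
  have hτζ : τ D.ζ = D.ζ :=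
    Fermat.Agent.ES.P36.ZetaUnr26.inertia_fixes_rootOfUnity Nat.prime_three hA (m := 5)
      (by norm_num) hζ hτ
  have hτ4 : ∀ c : Qb, c ^ 4 = 1 → τ c = c := fun c hc =>
    Fermat.Agent.ES.P36.ZetaUnr26.inertia_fixes_rootOfUnity Nat.prime_three hA (m := 4)
      (by norm_num) hc hτ
  obtain ⟨P, hP0, hP5, hPfix⟩ := hfix A hA
  obtain ⟨hc4, hc6⟩ := Fermat.Agent.S52K.SemistableC4C6.c4_c6_ne_zero W hΔ hss
  obtain ⟨k, hk⟩ := Sigma0Int.gal_pow_five_int D hD hE W hΔ hc4 hc6 hH hT τ hτζ P hP5 hP0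
    (hPfix τ hτ)
  refine ⟨τ ^ 5, D.ζ ^ k, ?_, ?_, ?_, ?_, ?_⟩
  · have h10 : D.ζ ^ 10 = 1 := by
      have : D.ζ ^ 10 = (D.ζ ^ 5) ^ 2 := by ring
      rw [this, hζ, one_pow]
    rw [← pow_mul, mul_comm, pow_mul, h10, one_pow]
  · have := congrArg Prod.fst hk
    simpa [gal] using this
  · have := congrArg Prod.snd hk
    simpa [gal] using this
  · intro c hc
    rw [Sigma0.pow_five_apply, hτ4 c hc, hτ4 c hc, hτ4 c hc, hτ4 c hc, hτ4 c hc]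
  · rw [Fermat.Agent.S52K5L.Ram3.pow_apply_of_neg hτr (by decide : Odd 5)]
    intro h
    have h2 : (2 : Qb) * r = 0 := by linear_combination -h
    have hr0 : r = 0 := (mul_eq_zero.mp h2).resolve_left two_ne_zero
    rw [hr0] at hr
    norm_num at hr

/-- (L6a), helper1. -/
theorem fixedFive (W : WeierstrassCurve ℤ) (hΔ : W.Δ ≠ 0) (hss : W.IsSemistableModel) :
    FixedFive W := fun _ hA =>
  Fermat.Agent.S52K5L.InertFix.exists_fixed_five_torsion W hΔ hss Nat.prime_three (by norm_num) hA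

/-- **The element `ρ`**, unconditionally. -/
theorem exists_rho (D : KleinData) (hD : D.Fibres) (hE : D.Ext) (hζ : D.ζ ^ 5 = 1)
    (W : WeierstrassCurve ℤ) (hΔ : W.Δ ≠ 0) (hss : W.IsSemistableModel)
    {v₀ : V2} (hH : D.H v₀ = -((W.c₄ : ℤ) : Qb)) (hT : D.T v₀ = ((W.c₆ : ℤ) : Qb))
    {r : Qb} (hr : r ^ 2 = 3) :
    ∃ (ρ : GQ) (μ : Qb), μ ^ 10 = 1 ∧ ρ v₀.1 = μ * v₀.1 ∧ ρ v₀.2 = μ * v₀.2 ∧
      (∀ c : Qb, c ^ 4 = 1 → ρ c = c) ∧ ρ r ≠ r :=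
  exists_rho_of_fixed D hD hE hζ W hΔ hss (fixedFive W hΔ hss) hH hT hr

open Polynomial Fermat.Agent.S52K4.Klein in
/-- **K5, final form**: the field `irr` of `S52Top.CoreAsm.FamilyData` for the Klein pencil through
`(z₁, z₂) = c • v₀` (`c⁴ = 1`: the sign bridge between the conventions of K3 and K4), with
`Q4, Q6` as produced by `S52K4.Pencil.exists_pencil`. -/
theorem irr_of_kleinData (D : KleinData) (hD : D.Fibres) (hE : D.Ext) (hζ : D.ζ ^ 5 = 1)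
    (W : WeierstrassCurve ℤ) (hΔ : W.Δ ≠ 0) (hss : W.IsSemistableModel)
    {v₀ : V2} (hH : D.H v₀ = -((W.c₄ : ℤ) : Qb)) (hT : D.T v₀ = ((W.c₆ : ℤ) : Qb))
    {c z₁ z₂ : Qb} (hc : c ^ 4 = 1) (hz₁ : z₁ = c * v₀.1) (hz₂ : z₂ = c * v₀.2)
    (hf : kf z₁ z₂ ≠ 0) {s : ℤ} (Q4 Q6 : ℚ[X])
    (hQ4 : ∀ x : Qb, aeval x Q4 = -kH (z₁ + x * kf2 z₁ z₂) (z₂ + x * -kf1 z₁ z₂))
    (hQ6 : ∀ x : Qb, aeval x Q6 = s * kT (z₁ + x * kf2 z₁ z₂) (z₂ + x * -kf1 z₁ z₂))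
    (N : ℤ) (hN : 0 < N) :
    ∃ (q : ℕ) (tq : ℤ), q.Prime ∧ ¬ (q : ℤ) ∣ N ∧
      ∀ t : ℤ, (q : ℤ) ∣ t - tq → ∀ W' : WeierstrassCurve ℤ, W'.Δ ≠ 0 →
        (W'.c₄ : ℚ) = Q4.eval (t : ℚ) → (W'.c₆ : ℚ) = Q6.eval (t : ℚ) →
        W'.ModRepIsIrreducible 3 := by
  obtain ⟨I, hI⟩ := IsAlgClosed.exists_pow_nat_eq (-1 : Qb) (n := 2) (by norm_num)
  obtain ⟨r, hr⟩ := IsAlgClosed.exists_pow_nat_eq (3 : Qb) (n := 2) (by norm_num)
  obtain ⟨ρ, μ, hμ, h1, h2, h4, hρr⟩ := exists_rho D hD hE hζ W hΔ hss hH hT hr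
  have hI4 : I ^ 4 = 1 := by
    have : I ^ 4 = (I ^ 2) ^ 2 := by ring
    rw [this, hI]; norm_num
  have hρc : ρ c = c := h4 c hc
  have hρz₁ : ρ z₁ = μ * z₁ := by rw [hz₁, map_mul, hρc, h1]; ring
  have hρz₂ : ρ z₂ = μ * z₂ := by rw [hz₂, map_mul, hρc, h2]; ring
  exact Fermat.Agent.S52K5.Irr.irr_klein hf Q4 Q6 hQ4 hQ6 hI hr hμ ρ hρz₁ hρz₂ (h4 I hI4) hρr N hN

end Fermat.Agent.S52K5.Rho
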